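/-
S28 long-shot, helper628: explicit `t = q^{1/N}`-expansions of the `SL(2,ℤ)`-conjugates of
`f(dτ)` (for `f` of level one) and of weight-`k` quotients such as `Δ(dτ)/Δ(τ)`.

Built on helper205's convergent Laurent calculus (`Fermat.Agent.S28.H205.ConvTo`) and the Hermite
normal form (`Fermat.Agent.S28.H628.Hermite`).
-/
import Mathlib
import Fermat.Agent.S28.H205.Conv
import Fermat.Agent.S28.H628.Hermite

set_option autoImplicit false

noncomputable section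

namespace Fermat.Agent.S28.H628

open UpperHalfPlane Complex HahnSeries MatrixGroups
open Fermat.Agent.S28.H205

/-! ### The points `(aτ + b)/d` of `ℍ` -/

/-- The point `(aτ + b)/d` of the upper half plane (junk value `τ` if `a = 0` or `d = 0`). -/
def affH (a b d : ℕ) (τ : ℍ) : ℍ :=
  if h : 0 < (((a : ℂ) * (τ : ℂ) + (b : ℂ)) / (d : ℂ)).im then
    ⟨((a : ℂ) * (τ : ℂ) + (b : ℂ)) / (d : ℂ), h⟩ else τ

theorem coe_affH {a d : ℕ} (ha : 0 < a) (hd : 0 < d) (b : ℕ) (τ : ℍ) :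
    (affH a b d τ : ℂ) = ((a : ℂ) * (τ : ℂ) + (b : ℂ)) / (d : ℂ) := by
  have him : 0 < (((a : ℂ) * (τ : ℂ) + (b : ℂ)) / (d : ℂ)).im := by
    have h1 : (((a : ℂ) * (τ : ℂ) + (b : ℂ)) / (d : ℂ)).im = (a : ℝ) * τ.im / d := by
      rw [Complex.div_natCast_im]
      simp
    rw [h1]
    have : 0 < τ.im := τ.im_pos
    positivity
  unfold affH
  rw [dif_pos him]

/-! ### The formal substitution `t ↦ u * t ^ e` -/

/-- `φ(u t^e)`: the Laurent series with `coeff (e k) = φ_k u^k` and `0` elsewhere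
(junk value `0` if `e = 0`). -/
def substSeries (e : ℕ) (u : ℂˣ) (φ : LaurentSeries ℂ) : LaurentSeries ℂ :=
  if h : e = 0 then 0 else @ModularCurve.qExpand ℂ _ e ⟨h⟩ (H205.twist u φ)

theorem substSeries_eq (e : ℕ) [NeZero e] (u : ℂˣ) (φ : LaurentSeries ℂ) :
    substSeries e u φ = ModularCurve.qExpand ℂ e (H205.twist u φ) := by
  unfold substSeries
  rw [dif_neg (NeZero.ne e)]

theorem substSeries_coeff_mul {e : ℕ} (he : e ≠ 0) (u : ℂˣ) (φ : LaurentSeries ℂ) (k : ℤ) :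
    (substSeries e u φ).coeff ((e : ℤ) * k) = φ.coeff k * (u : ℂ) ^ k := by
  have : NeZero e := ⟨he⟩
  rw [substSeries_eq, ModularCurve.qExpand_coeff_mul, H205.twist_coeff']

theorem substSeries_coeff_of_not_dvd (e : ℕ) (u : ℂˣ) (φ : LaurentSeries ℂ) {k : ℤ}
    (hk : ¬ (e : ℤ) ∣ k) : (substSeries e u φ).coeff k = 0 := by
  by_cases he : e = 0
  · unfold substSeries; rw [dif_pos he]; rfl
  · have : NeZero e := ⟨he⟩
    rw [substSeries_eq, ModularCurve.qExpand_coeff_of_not_dvd e _ hk]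

theorem substSeries_zero (e : ℕ) (u : ℂˣ) : substSeries e u 0 = 0 := by
  by_cases he : e = 0
  · unfold substSeries; rw [dif_pos he]
  · have : NeZero e := ⟨he⟩
    rw [substSeries_eq, map_zero, map_zero]

theorem substSeries_one {e : ℕ} (he : e ≠ 0) (u : ℂˣ) : substSeries e u 1 = 1 := by
  have : NeZero e := ⟨he⟩
  rw [substSeries_eq, map_one, map_one]

theorem substSeries_mul (e : ℕ) (u : ℂˣ) (φ ψ : LaurentSeries ℂ) :
    substSeries e u (φ * ψ) = substSeries e u φ * substSeries e u ψ := by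
  by_cases he : e = 0
  · unfold substSeries; rw [dif_pos he, dif_pos he, dif_pos he, mul_zero]
  · have : NeZero e := ⟨he⟩
    rw [substSeries_eq, substSeries_eq, substSeries_eq, map_mul, map_mul]

theorem substSeries_add (e : ℕ) (u : ℂˣ) (φ ψ : LaurentSeries ℂ) :
    substSeries e u (φ + ψ) = substSeries e u φ + substSeries e u ψ := by
  by_cases he : e = 0
  · unfold substSeries; rw [dif_pos he, dif_pos he, dif_pos he, add_zero]
  · have : NeZero e := ⟨he⟩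
    rw [substSeries_eq, substSeries_eq, substSeries_eq, map_add, map_add]

/-- A Hahn series has order `m` if its `m`-th coefficient is nonzero and all lower ones vanish. -/
theorem order_eq_of_coeff {φ : LaurentSeries ℂ} {m : ℤ} (h1 : φ.coeff m ≠ 0)
    (h2 : ∀ k, k < m → φ.coeff k = 0) : φ.order = m := by
  have hne : φ ≠ 0 := HahnSeries.ne_zero_of_coeff_ne_zero h1
  refine le_antisymm (HahnSeries.order_le_of_coeff_ne_zero h1) ?_
  by_contra hlt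
  rw [not_le] at hlt
  exact hne (HahnSeries.coeff_order_eq_zero.mp (h2 _ hlt))

theorem substSeries_ne_zero {e : ℕ} (he : e ≠ 0) (u : ℂˣ) {φ : LaurentSeries ℂ} (hφ : φ ≠ 0) :
    substSeries e u φ ≠ 0 := by
  have h1 : φ.coeff φ.order ≠ 0 := (fun h => hφ (HahnSeries.coeff_order_eq_zero.mp h))
  apply HahnSeries.ne_zero_of_coeff_ne_zero (g := (e : ℤ) * φ.order)
  rw [substSeries_coeff_mul he]
  exact mul_ne_zero h1 (zpow_ne_zero _ u.ne_zero)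

theorem order_substSeries {e : ℕ} (he : e ≠ 0) (u : ℂˣ) {φ : LaurentSeries ℂ} (hφ : φ ≠ 0) :
    (substSeries e u φ).order = (e : ℤ) * φ.order := by
  have h1 : φ.coeff φ.order ≠ 0 := (fun h => hφ (HahnSeries.coeff_order_eq_zero.mp h))
  have hepos : (0 : ℤ) < e := by exact_mod_cast Nat.pos_of_ne_zero he
  apply order_eq_of_coeff
  · rw [substSeries_coeff_mul he]
    exact mul_ne_zero h1 (zpow_ne_zero _ u.ne_zero)
  · intro k hk
    by_cases hdvd : (e : ℤ) ∣ k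
    · obtain ⟨j, rfl⟩ := hdvd
      rw [substSeries_coeff_mul he]
      have hj : j < φ.order := lt_of_mul_lt_mul_left hk hepos.le
      rw [HahnSeries.coeff_eq_zero_of_lt_order hj, zero_mul]
    · exact substSeries_coeff_of_not_dvd e u φ hdvd

theorem leadingCoeff_substSeries {e : ℕ} (he : e ≠ 0) (u : ℂˣ) {φ : LaurentSeries ℂ}
    (hφ : φ ≠ 0) :
    (substSeries e u φ).leadingCoeff = φ.leadingCoeff * (u : ℂ) ^ φ.order := by
  rw [HahnSeries.leadingCoeff_eq, order_substSeries he u hφ, substSeries_coeff_mul he,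
    HahnSeries.leadingCoeff_eq]

/-- Coefficients of `φ(u t^e)` lie in any subring containing the coefficients of `φ` and
`u`, `u⁻¹`. -/
theorem substSeries_coeff_mem (S : Subring ℂ) (e : ℕ) (u : ℂˣ) (φ : LaurentSeries ℂ)
    (hu : (u : ℂ) ∈ S) (hu' : ((u⁻¹ : ℂˣ) : ℂ) ∈ S) (hφ : ∀ k, φ.coeff k ∈ S) (k : ℤ) :
    (substSeries e u φ).coeff k ∈ S := by
  by_cases he : e = 0
  · unfold substSeries; rw [dif_pos he]; exact S.zero_mem
  by_cases hdvd : (e : ℤ) ∣ k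
  · obtain ⟨j, rfl⟩ := hdvd
    rw [substSeries_coeff_mul he]
    refine S.mul_mem (hφ j) ?_
    rcases Int.eq_nat_or_neg j with ⟨n, rfl | rfl⟩
    · rw [zpow_natCast]; exact S.pow_mem hu n
    · rw [zpow_neg, zpow_natCast, ← inv_pow]
      have : ((u : ℂ))⁻¹ = ((u⁻¹ : ℂˣ) : ℂ) := by simp
      rw [this]
      exact S.pow_mem hu' n
  · rw [substSeries_coeff_of_not_dvd e u φ hdvd]; exact S.zero_mem

/-! ### Analytic meaning of `substSeries` -/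

/-- If `f` has `q`-expansion `φ` (level `1`), then `τ ↦ f((aτ+b)/d')` has the `t = q^{1/N}`
expansion `φ(ζ_{d'}^b t^{(N/d') a})`, for `d' ∣ N`. -/
theorem convTo_affH {φ : LaurentSeries ℂ} {f : ℍ → ℂ} (hf : ConvTo 1 φ f) {N a d' : ℕ}
    (ha : 0 < a) (hd' : 0 < d') (hN : 0 < N) (hdN : d' ∣ N) (b : ℕ) :
    ConvTo N (substSeries (N / d' * a) (zetaU d' b) φ) (fun τ => f (affH a b d' τ)) := by
  have : NeZero a := ⟨ha.ne'⟩
  have hq : 0 < N / d' := Nat.div_pos (Nat.le_of_dvd hN hdN) hd'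
  have : NeZero (N / d') := ⟨hq.ne'⟩
  have : NeZero (N / d' * a) := ⟨(Nat.mul_pos hq ha).ne'⟩
  have h1 := hf.subst a d' (b : ℤ) (affH a b d') (fun τ => by
    rw [coe_affH ha hd']; push_cast; ring)
  have h2 := h1.changeLevel (N / d')
  have hlev : 1 * d' * (N / d') = N := by rw [one_mul]; exact Nat.mul_div_cancel' hdN
  rw [hlev, ModularCurve.qExpand_qExpand, one_mul] at h2
  rw [substSeries_eq]
  exact h2

/-! ### Conjugate series -/

/-- The formal `γ`-conjugate of `φ(q^d)` in the variable `t = q^{1/N}`: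
`φ(ζ_{d'}^b t^{(N/d') a})` with `(a, b, d')` the Hermite data of `(d, γ)`. -/
def conjSeries (N d : ℕ) (γ : SL(2, ℤ)) (φ : LaurentSeries ℂ) : LaurentSeries ℂ :=
  substSeries (N / hermD d γ * hermA d γ) (zetaU (hermD d γ) (hermB d γ)) φ

/-- The exponent `e = (N/d') a = N a² / d` of the conjugate series. -/
def conjExp (N d : ℕ) (γ : SL(2, ℤ)) : ℕ := N / hermD d γ * hermA d γ

theorem conjExp_pos {N d : ℕ} (hd : 0 < d) (hN : 0 < N) (hdN : d ∣ N) (γ : SL(2, ℤ)) :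
    0 < conjExp N d γ := by
  have hD := hermD_pos hd γ
  have hDN : hermD d γ ∣ N := (hermD_dvd d γ).trans hdN
  exact Nat.mul_pos (Nat.div_pos (Nat.le_of_dvd hN hDN) hD) (hermA_pos hd γ)

/-- `d * conjExp = N * a²`. -/
theorem conjExp_mul {N d : ℕ} (hd : 0 < d) (hdN : d ∣ N) (γ : SL(2, ℤ)) :
    d * conjExp N d γ = N * hermA d γ ^ 2 := by
  have hDN : hermD d γ ∣ N := (hermD_dvd d γ).trans hdN
  obtain ⟨m, hm⟩ := hDN
  have hD := hermD_pos hd γ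
  have h1 : N / hermD d γ = m := by rw [hm]; exact Nat.mul_div_cancel_left _ hD
  have h2 := hermA_mul_hermD d γ
  unfold conjExp
  rw [h1]
  calc d * (m * hermA d γ) = (hermA d γ * hermD d γ) * (m * hermA d γ) := by rw [h2]
    _ = (hermD d γ * m) * hermA d γ ^ 2 := by ring
    _ = N * hermA d γ ^ 2 := by rw [← hm]

theorem conjSeries_Gamma0_mul {N d : ℕ} (hd : 0 < d) (hdN : d ∣ N) {γ₀ : SL(2, ℤ)}
    (hγ₀ : γ₀ ∈ CongruenceSubgroup.Gamma0 N) (γ : SL(2, ℤ)) (φ : LaurentSeries ℂ) :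
    conjSeries N d (γ₀ * γ) φ = conjSeries N d γ φ := by
  obtain ⟨hA, hB, hD⟩ := herm_Gamma0_mul hd hdN hγ₀ γ
  unfold conjSeries
  rw [hA, hB, hD]

theorem conjSeries_one {N d : ℕ} (hd : 0 < d) (hN : 0 < N) (φ : LaurentSeries ℂ) :
    conjSeries N d 1 φ =
      @ModularCurve.qExpand ℂ _ (N * d) ⟨(Nat.mul_pos hN hd).ne'⟩ φ := by
  obtain ⟨hA, hB, hD⟩ := herm_one hd
  unfold conjSeries
  rw [hA, hB, hD, Nat.div_one]
  have : NeZero (N * d) := ⟨(Nat.mul_pos hN hd).ne'⟩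
  rw [substSeries_eq]
  have hz : zetaU 1 ((0 : ℕ) : ℤ) = 1 := by
    ext
    simp
  rw [hz, H205.twist_one]

theorem order_conjSeries {N d : ℕ} (hd : 0 < d) (hN : 0 < N) (hdN : d ∣ N) (γ : SL(2, ℤ))
    {φ : LaurentSeries ℂ} (hφ : φ ≠ 0) :
    (conjSeries N d γ φ).order = (conjExp N d γ : ℤ) * φ.order :=
  order_substSeries (conjExp_pos hd hN hdN γ).ne' _ hφ

theorem leadingCoeff_conjSeries {N d : ℕ} (hd : 0 < d) (hN : 0 < N) (hdN : d ∣ N)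
    (γ : SL(2, ℤ)) {φ : LaurentSeries ℂ} (hφ : φ ≠ 0) :
    (conjSeries N d γ φ).leadingCoeff =
      φ.leadingCoeff * (zetaU (hermD d γ) (hermB d γ) : ℂ) ^ φ.order :=
  leadingCoeff_substSeries (conjExp_pos hd hN hdN γ).ne' _ hφ

theorem conjSeries_ne_zero {N d : ℕ} (hd : 0 < d) (hN : 0 < N) (hdN : d ∣ N) (γ : SL(2, ℤ))
    {φ : LaurentSeries ℂ} (hφ : φ ≠ 0) : conjSeries N d γ φ ≠ 0 :=
  substSeries_ne_zero (conjExp_pos hd hN hdN γ).ne' _ hφ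

/-! ### Analytic meaning of the conjugate series -/

/-- Key geometric identity: `d • (γ • τ) = γ' • ((aτ+b)/d')`. -/
theorem exists_smul_affH {d : ℕ} (hd : 0 < d) (γ : SL(2, ℤ)) :
    ∃ γ' : SL(2, ℤ), ∀ (τ ρ : ℍ), (ρ : ℂ) = (d : ℂ) * ((γ • τ : ℍ) : ℂ) →
      ρ = γ' • affH (hermA d γ) (hermB d γ) (hermD d γ) τ ∧
      (γ' 1 0 : ℂ) * (affH (hermA d γ) (hermB d γ) (hermD d γ) τ : ℂ) + (γ' 1 1 : ℂ)
        = ((γ 1 0 : ℂ) * τ + (γ 1 1 : ℂ)) / (hermD d γ : ℂ) := by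
  obtain ⟨γ', h⟩ := hermite_smul_full hd γ
  refine ⟨γ', fun τ ρ hρ => ?_⟩
  have h1 := h τ (affH (hermA d γ) (hermB d γ) (hermD d γ) τ)
    (coe_affH (hermA_pos hd γ) (hermD_pos hd γ) _ τ)
  refine ⟨?_, h1.2⟩
  apply UpperHalfPlane.ext
  rw [hρ, h1.1]

/-- **Conjugates of `f(dτ)`, `f` of level one.**  If `f` is `SL(2,ℤ)`-invariant with
`q`-expansion `φ`, then `τ ↦ f(d·γτ)` has `t = q^{1/N}`-expansion `conjSeries N d γ φ`.
The map `τ ↦ dτ` is passed as an arbitrary `m : ℍ → ℍ` with the right coercion. -/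
theorem convTo_conj {φ : LaurentSeries ℂ} {f : ℍ → ℂ} (hf : ConvTo 1 φ f)
    (hinv : ∀ (γ : SL(2, ℤ)) (τ : ℍ), f (γ • τ) = f τ) {N d : ℕ} (hd : 0 < d) (hN : 0 < N)
    (hdN : d ∣ N) (γ : SL(2, ℤ)) (m : ℍ → ℍ) (hm : ∀ τ : ℍ, (m τ : ℂ) = (d : ℂ) * (τ : ℂ)) :
    ConvTo N (conjSeries N d γ φ) (fun τ => f (m (γ • τ))) := by
  obtain ⟨γ', hγ'⟩ := exists_smul_affH hd γ
  have hfun : (fun τ => f (m (γ • τ)))
      = fun τ => f (affH (hermA d γ) (hermB d γ) (hermD d γ) τ) := by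
    funext τ
    rw [(hγ' τ (m (γ • τ)) (hm _)).1, hinv]
  rw [hfun]
  exact convTo_affH hf (hermA_pos hd γ) (hermD_pos hd γ) hN ((hermD_dvd d γ).trans hdN) _

/-- **Conjugates of weight-`k` quotients `F(dτ)/G(τ)`.**  If `F`, `G` transform with weight `k`
under `SL(2,ℤ)`, have `q`-expansions `φ`, `ψ` and `G` has no zeros, then
`τ ↦ F(d·γτ)/G(γτ)` has the `t = q^{1/N}`-expansion
`d'^{-k} · conjSeries N d γ φ · (ψ(t^N))⁻¹`. -/
theorem convTo_conj_quot {φ ψ : LaurentSeries ℂ} {F G : ℍ → ℂ} (hF : ConvTo 1 φ F)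
    (hG : ConvTo 1 ψ G) (k : ℤ)
    (hFk : ∀ (γ : SL(2, ℤ)) (τ : ℍ), F (γ • τ) = ((γ 1 0 : ℂ) * τ + (γ 1 1 : ℂ)) ^ k * F τ)
    (hGk : ∀ (γ : SL(2, ℤ)) (τ : ℍ), G (γ • τ) = ((γ 1 0 : ℂ) * τ + (γ 1 1 : ℂ)) ^ k * G τ)
    (hG0 : ∀ τ, G τ ≠ 0) {N d : ℕ} (hd : 0 < d) (hN : 0 < N)
    (hdN : d ∣ N) (γ : SL(2, ℤ)) (m : ℍ → ℍ) (hm : ∀ τ : ℍ, (m τ : ℂ) = (d : ℂ) * (τ : ℂ)) :
    ConvTo N
      (HahnSeries.C (((hermD d γ : ℂ)) ^ (-k)) * conjSeries N d γ φ *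
        (@ModularCurve.qExpand ℂ _ N ⟨hN.ne'⟩ ψ)⁻¹)
      (fun τ => F (m (γ • τ)) / G (γ • τ)) := by
  have : NeZero N := ⟨hN.ne'⟩
  obtain ⟨γ', hγ'⟩ := exists_smul_affH hd γ
  have hD0 : (hermD d γ : ℂ) ≠ 0 := by exact_mod_cast (hermD_pos hd γ).ne'
  have hfun : (fun τ => F (m (γ • τ)) / G (γ • τ))
      = (fun _ : ℍ => ((hermD d γ : ℂ)) ^ (-k)) *
          (fun τ => F (affH (hermA d γ) (hermB d γ) (hermD d γ) τ)) *
          (fun τ => (G τ)⁻¹) := by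
    funext τ
    simp only [Pi.mul_apply]
    obtain ⟨h1, h2⟩ := hγ' τ (m (γ • τ)) (hm _)
    have hden := int_lin_ne_zero _ _ (SL2_bottom_ne_zero γ) τ
    rw [h1, hFk, hGk, h2, div_zpow, zpow_neg]
    have hz : ((γ 1 0 : ℂ) * τ + (γ 1 1 : ℂ)) ^ k ≠ 0 := zpow_ne_zero _ hden
    have hz' : ((hermD d γ : ℂ)) ^ k ≠ 0 := zpow_ne_zero _ hD0
    field_simp
  rw [hfun]
  have hFc := convTo_affH hF (hermA_pos hd γ) (hermD_pos hd γ) hN
    ((hermD_dvd d γ).trans hdN) (hermB d γ)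
  have hGc : ConvTo N (ModularCurve.qExpand ℂ N ψ) G := by
    have := hG.changeLevel N
    rwa [one_mul] at this
  have hGi := hGc.inv hG0
  exact ((convTo_C N _).mul hFc).mul hGi

/-! ### Orders, leading coefficients and coefficient rings of quotients -/

theorem order_mul' {x y : LaurentSeries ℂ} (hx : x ≠ 0) (hy : y ≠ 0) :
    (x * y).order = x.order + y.order :=
  HahnSeries.order_mul_of_ne_zero
    (mul_ne_zero (HahnSeries.leadingCoeff_ne_zero.mpr hx) (HahnSeries.leadingCoeff_ne_zero.mpr hy))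

theorem order_inv' {x : LaurentSeries ℂ} (hx : x ≠ 0) : (x⁻¹).order = - x.order := by
  have h1 : x * x⁻¹ = 1 := mul_inv_cancel₀ hx
  have h2 := order_mul' hx (inv_ne_zero hx)
  rw [h1, HahnSeries.order_one] at h2
  omega

theorem leadingCoeff_inv' {x : LaurentSeries ℂ} (hx : x ≠ 0) :
    (x⁻¹).leadingCoeff = (x.leadingCoeff)⁻¹ := by
  have h1 : x * x⁻¹ = 1 := mul_inv_cancel₀ hx
  have h2 := HahnSeries.leadingCoeff_mul x x⁻¹
  rw [h1, HahnSeries.leadingCoeff_one] at h2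
  exact eq_inv_of_mul_eq_one_right h2.symm

theorem C_ne_zero' {c : ℂ} (hc : c ≠ 0) : (HahnSeries.C c : LaurentSeries ℂ) ≠ 0 := by
  intro h
  have := congrArg (fun x : LaurentSeries ℂ => x.coeff 0) h
  simp at this
  exact hc this

theorem leadingCoeff_C' (c : ℂ) : (HahnSeries.C c : LaurentSeries ℂ).leadingCoeff = c := by
  have : (HahnSeries.C c : LaurentSeries ℂ) = HahnSeries.single 0 c := rfl
  rw [this, HahnSeries.leadingCoeff_of_single]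

/-- Coefficients of a product lie in a subring containing the coefficients of the factors. -/
theorem coeff_mul_mem (S : Subring ℂ) {x y : LaurentSeries ℂ} (hx : ∀ k, x.coeff k ∈ S)
    (hy : ∀ k, y.coeff k ∈ S) (k : ℤ) : (x * y).coeff k ∈ S := by
  rw [HahnSeries.coeff_mul]
  exact S.sum_mem fun ij _ => S.mul_mem (hx _) (hy _)

theorem coeff_C_mem (S : Subring ℂ) {c : ℂ} (hc : c ∈ S) (k : ℤ) :
    (HahnSeries.C c : LaurentSeries ℂ).coeff k ∈ S := by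
  have : (HahnSeries.C c : LaurentSeries ℂ) = HahnSeries.single 0 c := rfl
  rw [this, HahnSeries.coeff_single]
  split_ifs
  · exact hc
  · exact S.zero_mem

/-- The formal `γ`-conjugate of the weight-`k` quotient `φ(q^d)/ψ(q)` in `t = q^{1/N}`:
`d'^{-k} · φ(ζ_{d'}^b t^{(N/d') a}) · ψ(t^N)⁻¹`. -/
def conjQuot (N d : ℕ) (γ : SL(2, ℤ)) (k : ℤ) (φ ψ : LaurentSeries ℂ) : LaurentSeries ℂ :=
  HahnSeries.C (((hermD d γ : ℂ)) ^ (-k)) * conjSeries N d γ φ * (substSeries N 1 ψ)⁻¹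

theorem substSeries_unit_one (N : ℕ) [NeZero N] (ψ : LaurentSeries ℂ) :
    substSeries N 1 ψ = ModularCurve.qExpand ℂ N ψ := by
  rw [substSeries_eq, H205.twist_one]

theorem conjQuot_Gamma0_mul {N d : ℕ} (hd : 0 < d) (hdN : d ∣ N) {γ₀ : SL(2, ℤ)}
    (hγ₀ : γ₀ ∈ CongruenceSubgroup.Gamma0 N) (γ : SL(2, ℤ)) (k : ℤ) (φ ψ : LaurentSeries ℂ) :
    conjQuot N d (γ₀ * γ) k φ ψ = conjQuot N d γ k φ ψ := by
  unfold conjQuot
  rw [conjSeries_Gamma0_mul hd hdN hγ₀, (herm_Gamma0_mul hd hdN hγ₀ γ).2.2]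

theorem conjQuot_one {N d : ℕ} (hd : 0 < d) (hN : 0 < N) (k : ℤ) (φ ψ : LaurentSeries ℂ) :
    conjQuot N d 1 k φ ψ =
      @ModularCurve.qExpand ℂ _ N ⟨hN.ne'⟩
        (@ModularCurve.qExpand ℂ _ d ⟨hd.ne'⟩ φ * ψ⁻¹) := by
  have : NeZero N := ⟨hN.ne'⟩
  have : NeZero d := ⟨hd.ne'⟩
  have : NeZero (N * d) := ⟨(Nat.mul_pos hN hd).ne'⟩
  unfold conjQuot
  rw [conjSeries_one hd hN, (herm_one hd).2.2, substSeries_unit_one, map_mul, map_inv₀,
    ModularCurve.qExpand_qExpand]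
  simp

theorem conjQuot_ne_zero {N d : ℕ} (hd : 0 < d) (hN : 0 < N) (hdN : d ∣ N) (γ : SL(2, ℤ))
    (k : ℤ) {φ ψ : LaurentSeries ℂ} (hφ : φ ≠ 0) (hψ : ψ ≠ 0) : conjQuot N d γ k φ ψ ≠ 0 := by
  have hD0 : (hermD d γ : ℂ) ≠ 0 := by exact_mod_cast (hermD_pos hd γ).ne'
  unfold conjQuot
  exact mul_ne_zero (mul_ne_zero (C_ne_zero' (zpow_ne_zero _ hD0))
    (conjSeries_ne_zero hd hN hdN γ hφ)) (inv_ne_zero (substSeries_ne_zero hN.ne' 1 hψ))

theorem order_conjQuot {N d : ℕ} (hd : 0 < d) (hN : 0 < N) (hdN : d ∣ N) (γ : SL(2, ℤ))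
    (k : ℤ) {φ ψ : LaurentSeries ℂ} (hφ : φ ≠ 0) (hψ : ψ ≠ 0) :
    (conjQuot N d γ k φ ψ).order = (conjExp N d γ : ℤ) * φ.order - (N : ℤ) * ψ.order := by
  have hD0 : (hermD d γ : ℂ) ≠ 0 := by exact_mod_cast (hermD_pos hd γ).ne'
  have hC := C_ne_zero' (zpow_ne_zero (-k) hD0)
  have h1 := conjSeries_ne_zero hd hN hdN γ hφ
  have h2 := substSeries_ne_zero hN.ne' 1 hψ
  unfold conjQuot
  rw [order_mul' (mul_ne_zero hC h1) (inv_ne_zero h2), order_mul' hC h1, order_inv' h2,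
    HahnSeries.order_C, order_conjSeries hd hN hdN γ hφ, order_substSeries hN.ne' 1 hψ]
  ring

theorem leadingCoeff_conjQuot {N d : ℕ} (hd : 0 < d) (hN : 0 < N) (hdN : d ∣ N)
    (γ : SL(2, ℤ)) (k : ℤ) {φ ψ : LaurentSeries ℂ} (hφ : φ ≠ 0) (hψ : ψ ≠ 0) :
    (conjQuot N d γ k φ ψ).leadingCoeff =
      ((hermD d γ : ℂ)) ^ (-k) *
        (φ.leadingCoeff * (zetaU (hermD d γ) (hermB d γ) : ℂ) ^ φ.order) *
        (ψ.leadingCoeff)⁻¹ := by
  have h2 := substSeries_ne_zero hN.ne' 1 hψ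
  unfold conjQuot
  rw [HahnSeries.leadingCoeff_mul, HahnSeries.leadingCoeff_mul, leadingCoeff_C',
    leadingCoeff_conjSeries hd hN hdN γ hφ, leadingCoeff_inv' h2,
    leadingCoeff_substSeries hN.ne' 1 hψ]
  simp

/-- Coefficients of `conjQuot`: they lie in any subring `S ⊆ ℂ` containing `1/d'`, `ζ_{d'}^{±b}`,
the coefficients of `φ` and the coefficients of `ψ⁻¹`. -/
theorem conjQuot_coeff_mem (S : Subring ℂ) {N d : ℕ} (hN : 0 < N) (γ : SL(2, ℤ))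
    (k : ℤ) {φ ψ : LaurentSeries ℂ}
    (hD : (((hermD d γ : ℂ)) ^ (-k)) ∈ S)
    (hu : (zetaU (hermD d γ) (hermB d γ) : ℂ) ∈ S)
    (hu' : (((zetaU (hermD d γ) (hermB d γ))⁻¹ : ℂˣ) : ℂ) ∈ S)
    (hφ : ∀ n, φ.coeff n ∈ S) (hψ : ∀ n, (ψ⁻¹).coeff n ∈ S) (n : ℤ) :
    (conjQuot N d γ k φ ψ).coeff n ∈ S := by
  have : NeZero N := ⟨hN.ne'⟩
  unfold conjQuot
  refine coeff_mul_mem S (coeff_mul_mem S (coeff_C_mem S hD)
    (substSeries_coeff_mem S _ _ φ hu hu' hφ)) ?_ n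
  intro m
  have h1 : (substSeries N 1 ψ)⁻¹ = substSeries N 1 ψ⁻¹ := by
    rw [substSeries_unit_one, substSeries_unit_one, map_inv₀]
  rw [h1]
  exact substSeries_coeff_mem S N 1 ψ⁻¹ (by simp) (by simp) hψ m

/-- **Conjugates of weight-`k` quotients**, packaged with `conjQuot`. -/
theorem convTo_conjQuot {φ ψ : LaurentSeries ℂ} {F G : ℍ → ℂ} (hF : ConvTo 1 φ F)
    (hG : ConvTo 1 ψ G) (k : ℤ)
    (hFk : ∀ (γ : SL(2, ℤ)) (τ : ℍ), F (γ • τ) = ((γ 1 0 : ℂ) * τ + (γ 1 1 : ℂ)) ^ k * F τ)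
    (hGk : ∀ (γ : SL(2, ℤ)) (τ : ℍ), G (γ • τ) = ((γ 1 0 : ℂ) * τ + (γ 1 1 : ℂ)) ^ k * G τ)
    (hG0 : ∀ τ, G τ ≠ 0) {N d : ℕ} (hd : 0 < d) (hN : 0 < N)
    (hdN : d ∣ N) (γ : SL(2, ℤ)) (m : ℍ → ℍ) (hm : ∀ τ : ℍ, (m τ : ℂ) = (d : ℂ) * (τ : ℂ)) :
    ConvTo N (conjQuot N d γ k φ ψ) (fun τ => F (m (γ • τ)) / G (γ • τ)) := by
  have : NeZero N := ⟨hN.ne'⟩
  have h := convTo_conj_quot hF hG k hFk hGk hG0 hd hN hdN γ m hm
  unfold conjQuot
  rw [substSeries_unit_one]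
  exact h

/-! ### The discriminant -/

/-- Weight-12 transformation law of `Δ` in elementary form. -/
theorem discriminant_smul (γ : SL(2, ℤ)) (τ : ℍ) :
    ModularForm.discriminant (γ • τ) =
      ((γ 1 0 : ℂ) * τ + (γ 1 1 : ℂ)) ^ (12 : ℤ) * ModularForm.discriminant τ := by
  have hmem : Matrix.SpecialLinearGroup.mapGL ℝ γ ∈
      (Matrix.SpecialLinearGroup.mapGL ℝ : SL(2, ℤ) →* GL (Fin 2) ℝ).range := ⟨γ, rfl⟩
  have h := SlashInvariantForm.slash_action_eqn' CuspForm.discriminant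
    (γ := Matrix.SpecialLinearGroup.mapGL ℝ γ) hmem τ
  have h2 : (γ • τ : ℍ) = (Matrix.SpecialLinearGroup.mapGL ℝ γ) • τ := rfl
  rw [h2]
  simpa using h

/-- **Conjugates of `u_d = Δ(dτ)/Δ(τ)`.**  Given the `q`-expansion `δ` of `Δ`, the function
`τ ↦ Δ(d·γτ)/Δ(γτ)` has `t = q^{1/N}`-expansion `conjQuot N d γ 12 δ δ`. -/
theorem convTo_conjU {δ : LaurentSeries ℂ} (hδ : ConvTo 1 δ ModularForm.discriminant)
    {N d : ℕ} (hd : 0 < d) (hN : 0 < N) (hdN : d ∣ N) (γ : SL(2, ℤ)) (m : ℍ → ℍ)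
    (hm : ∀ τ : ℍ, (m τ : ℂ) = (d : ℂ) * (τ : ℂ)) :
    ConvTo N (conjQuot N d γ 12 δ δ)
      (fun τ => ModularForm.discriminant (m (γ • τ)) / ModularForm.discriminant (γ • τ)) :=
  convTo_conjQuot hδ hδ 12 discriminant_smul discriminant_smul
    ModularForm.discriminant_ne_zero hd hN hdN γ m hm

/-- Order of the conjugates of `u_d`: `N a²/d − N` (in `t`), assuming `ord δ = 1`. -/
theorem order_conjU {δ : LaurentSeries ℂ} (hδ : δ.order = 1) (hδ0 : δ ≠ 0)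
    {N d : ℕ} (hd : 0 < d) (hN : 0 < N) (hdN : d ∣ N) (γ : SL(2, ℤ)) :
    (conjQuot N d γ 12 δ δ).order = (conjExp N d γ : ℤ) - N := by
  rw [order_conjQuot hd hN hdN γ 12 hδ0 hδ0, hδ]
  ring

/-- Leading coefficient of the conjugates of `u_d`: `d'^{-12} ζ_{d'}^b`, assuming `δ = q + …`. -/
theorem leadingCoeff_conjU {δ : LaurentSeries ℂ} (hδ : δ.order = 1) (hδ1 : δ.leadingCoeff = 1)
    {N d : ℕ} (hd : 0 < d) (hN : 0 < N) (hdN : d ∣ N) (γ : SL(2, ℤ)) :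
    (conjQuot N d γ 12 δ δ).leadingCoeff =
      ((hermD d γ : ℂ)) ^ (-12 : ℤ) * (zetaU (hermD d γ) (hermB d γ) : ℂ) := by
  have hδ0 : δ ≠ 0 := by
    intro h
    rw [h, HahnSeries.leadingCoeff_zero] at hδ1
    exact zero_ne_one hδ1
  rw [leadingCoeff_conjQuot hd hN hdN γ 12 hδ0 hδ0, hδ, hδ1]
  simp

end Fermat.Agent.S28.H628

end
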