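/-
S28 long-shot, helper628: the concrete "modular function ring of level `N`".

`modRing N` = ℂ-algebra of functions `f : ℍ → ℂ` such that every translate `f ∘ γ`
(`γ ∈ SL(2,ℤ)`) has a convergent Laurent expansion in `t = q^{1/N}` on all of `ℍ`.
It carries an action of `SL(2,ℤ)` by ring automorphisms, an injective expansion homomorphism
`expandHom N : modRing N →+* ℂ((t))`, satisfies the polynomial principle
(invariants expand to polynomials in `j(t^N)`), and contains `j(dτ)` and `(Δ(dτ)/Δ(τ))^{±1}`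
for `d ∣ N`, whose conjugates have the explicit expansions of `Conj.lean`.
-/
import Mathlib
import Fermat.Agent.S28.H205.Conv
import Fermat.Agent.S28.H565.PolyPrinciple
import Fermat.Agent.S28.H628.Conj

set_option autoImplicit false

noncomputable section

namespace Fermat.Agent.S28.H628

open UpperHalfPlane Complex HahnSeries MatrixGroups
open Fermat.Agent.S28.H205
open scoped Manifold

/-! ### Adapters between `H565.HasTExp` and `H205.ConvTo` -/

theorem convTo_iff_hasTExp (N : ℕ) (φ : LaurentSeries ℂ) (f : ℍ → ℂ) :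
    ConvTo N φ f ↔ H565.HasTExp (N : ℝ) f φ := Iff.rfl

theorem convTo_one_of_hasTExp {φ : LaurentSeries ℂ} {f : ℍ → ℂ} (h : H565.HasTExp 1 f φ) :
    ConvTo 1 φ f := by
  intro τ
  have := h τ
  simpa [tPar] using this

theorem convTo_jFun : ConvTo 1 (ModularCurve.jqModC ℂ) H565.jFun :=
  convTo_one_of_hasTExp H565.hasTExp_jFun

theorem convTo_discriminant : ConvTo 1 H565.deltaSeriesC ModularForm.discriminant :=
  convTo_one_of_hasTExp H565.hasTExp_discriminant

/-! ### Multiplication by `d` on `ℍ` -/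

/-- `τ ↦ dτ` on the upper half plane (junk if `d = 0`). -/
def mulH (d : ℕ) (τ : ℍ) : ℍ := affH d 0 1 τ

theorem coe_mulH {d : ℕ} (hd : 0 < d) (τ : ℍ) : (mulH d τ : ℂ) = (d : ℂ) * (τ : ℂ) := by
  unfold mulH
  rw [coe_affH hd one_pos]
  simp

/-! ### The ring -/

/-- `f ∘ γ` has a convergent `t = q^{1/N}` Laurent expansion for every `γ ∈ SL(2,ℤ)`. -/
def IsMerN (N : ℕ) (f : ℍ → ℂ) : Prop :=
  ∀ γ : SL(2, ℤ), ∃ φ : LaurentSeries ℂ, ConvTo N φ (fun τ => f (γ • τ))

theorem IsMerN.add {N : ℕ} {f g : ℍ → ℂ} (hf : IsMerN N f) (hg : IsMerN N g) :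
    IsMerN N (f + g) := fun γ => by
  obtain ⟨φ, hφ⟩ := hf γ
  obtain ⟨ψ, hψ⟩ := hg γ
  exact ⟨φ + ψ, hφ.add hψ⟩

theorem IsMerN.mul {N : ℕ} {f g : ℍ → ℂ} (hf : IsMerN N f) (hg : IsMerN N g) :
    IsMerN N (f * g) := fun γ => by
  obtain ⟨φ, hφ⟩ := hf γ
  obtain ⟨ψ, hψ⟩ := hg γ
  exact ⟨φ * ψ, hφ.mul hψ⟩

theorem isMerN_const (N : ℕ) (c : ℂ) : IsMerN N (fun _ => c) := fun _ =>
  ⟨HahnSeries.C c, convTo_C N c⟩

theorem IsMerN.comp_smul {N : ℕ} {f : ℍ → ℂ} (hf : IsMerN N f) (g : SL(2, ℤ)) :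
    IsMerN N (fun τ => f (g • τ)) := fun γ => by
  obtain ⟨φ, hφ⟩ := hf (g * γ)
  refine ⟨φ, ?_⟩
  have : (fun τ => f (g • γ • τ)) = fun τ => f ((g * γ) • τ) := by
    funext τ; rw [mul_smul]
  rw [this]
  exact hφ

theorem IsMerN.inv {N : ℕ} [NeZero N] {f : ℍ → ℂ} (hf : IsMerN N f) (h0 : ∀ τ, f τ ≠ 0) :
    IsMerN N (fun τ => (f τ)⁻¹) := fun γ => by
  obtain ⟨φ, hφ⟩ := hf γ
  exact ⟨φ⁻¹, hφ.inv (fun τ => h0 _)⟩

/-- The ℂ-algebra of functions on `ℍ` all of whose `SL(2,ℤ)`-translates have a convergent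
Laurent expansion in `t = q^{1/N}`. -/
def modRing (N : ℕ) : Subalgebra ℂ (ℍ → ℂ) where
  carrier := {f | IsMerN N f}
  mul_mem' := fun hf hg => IsMerN.mul hf hg
  add_mem' := fun hf hg => IsMerN.add hf hg
  algebraMap_mem' := fun c => isMerN_const N c

theorem mem_modRing {N : ℕ} {f : ℍ → ℂ} : f ∈ modRing N ↔ IsMerN N f := Iff.rfl

/-! ### The `SL(2,ℤ)`-action -/

/-- `(g • f)(τ) = f(g⁻¹ τ)`. -/
instance modRingSMul (N : ℕ) : SMul SL(2, ℤ) (modRing N) where
  smul g f := ⟨fun τ => f.1 (g⁻¹ • τ), IsMerN.comp_smul f.2 g⁻¹⟩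

theorem modRing_smul_apply {N : ℕ} (g : SL(2, ℤ)) (f : modRing N) (τ : ℍ) :
    (g • f).1 τ = f.1 (g⁻¹ • τ) := rfl

instance modRingAction (N : ℕ) : MulSemiringAction SL(2, ℤ) (modRing N) where
  one_smul f := by
    apply Subtype.ext; funext τ
    rw [modRing_smul_apply, inv_one, one_smul]
  mul_smul g h f := by
    apply Subtype.ext; funext τ
    rw [modRing_smul_apply, modRing_smul_apply, modRing_smul_apply, mul_inv_rev, mul_smul]
  smul_zero g := by
    apply Subtype.ext; funext τ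
    rfl
  smul_add g f₁ f₂ := by
    apply Subtype.ext; funext τ
    rfl
  smul_one g := by
    apply Subtype.ext; funext τ
    rfl
  smul_mul g f₁ f₂ := by
    apply Subtype.ext; funext τ
    rfl

/-- Invariance under `g` in terms of values. -/
theorem modRing_smul_eq_iff {N : ℕ} (g : SL(2, ℤ)) (f : modRing N) :
    g • f = f ↔ ∀ τ, f.1 (g⁻¹ • τ) = f.1 τ := by
  constructor
  · intro h τ
    rw [← modRing_smul_apply, h]
  · intro h
    apply Subtype.ext; funext τ
    rw [modRing_smul_apply, h]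

/-! ### The expansion homomorphism -/

/-- The `t`-expansion of `f ∘ γ` (chosen; unique if `N ≠ 0`). -/
def expandAt (N : ℕ) (γ : SL(2, ℤ)) (f : modRing N) : LaurentSeries ℂ :=
  Classical.choose (f.2 γ)

theorem convTo_expandAt (N : ℕ) (γ : SL(2, ℤ)) (f : modRing N) :
    ConvTo N (expandAt N γ f) (fun τ => f.1 (γ • τ)) :=
  Classical.choose_spec (f.2 γ)

theorem expandAt_eq_of_convTo {N : ℕ} [NeZero N] {γ : SL(2, ℤ)} {f : modRing N}
    {φ : LaurentSeries ℂ} (h : ConvTo N φ (fun τ => f.1 (γ • τ))) : expandAt N γ f = φ :=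
  (convTo_expandAt N γ f).series_unique h

/-- The expansion at `∞` as a ring homomorphism. -/
def expandHom (N : ℕ) [NeZero N] : modRing N →+* LaurentSeries ℂ where
  toFun f := expandAt N 1 f
  map_one' := expandAt_eq_of_convTo (by
    have := convTo_one N
    exact this)
  map_mul' f g := expandAt_eq_of_convTo ((convTo_expandAt N 1 f).mul (convTo_expandAt N 1 g))
  map_zero' := expandAt_eq_of_convTo (by
    have := convTo_zero N
    exact this)
  map_add' f g := expandAt_eq_of_convTo ((convTo_expandAt N 1 f).add (convTo_expandAt N 1 g))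

theorem convTo_expandHom (N : ℕ) [NeZero N] (f : modRing N) : ConvTo N (expandHom N f) f.1 := by
  have h := convTo_expandAt N 1 f
  have : (fun τ => f.1 ((1 : SL(2, ℤ)) • τ)) = f.1 := by funext τ; rw [one_smul]
  rw [this] at h
  exact h

theorem expandHom_eq_of_convTo {N : ℕ} [NeZero N] {f : modRing N} {φ : LaurentSeries ℂ}
    (h : ConvTo N φ f.1) : expandHom N f = φ :=
  (convTo_expandHom N f).series_unique h

theorem expandHom_algebraMap (N : ℕ) [NeZero N] (c : ℂ) :
    expandHom N (algebraMap ℂ (modRing N) c) = HahnSeries.C c :=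
  expandHom_eq_of_convTo (convTo_C N c)

theorem expandHom_injective (N : ℕ) [NeZero N] : Function.Injective (expandHom N) := by
  intro f g h
  apply Subtype.ext
  exact (convTo_expandHom N f).fun_unique (h ▸ convTo_expandHom N g)

instance modRing_isDomain (N : ℕ) [NeZero N] : IsDomain (modRing N) :=
  Function.Injective.isDomain (expandHom N) (expandHom_injective N)

/-- Expansion of a translate: `E(g • f)` is the expansion of `f ∘ g⁻¹`. -/
theorem expandHom_smul (N : ℕ) [NeZero N] (g : SL(2, ℤ)) (f : modRing N) :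
    expandHom N (g • f) = expandAt N g⁻¹ f :=
  expandHom_eq_of_convTo (convTo_expandAt N g⁻¹ f)

theorem expandHom_smul_eq_of_convTo {N : ℕ} [NeZero N] {g : SL(2, ℤ)} {f : modRing N}
    {φ : LaurentSeries ℂ} (h : ConvTo N φ (fun τ => f.1 (g⁻¹ • τ))) :
    expandHom N (g • f) = φ := by
  rw [expandHom_smul]
  exact expandAt_eq_of_convTo h

/-- Elements of `modRing N` are holomorphic. -/
theorem modRing_mdiff (N : ℕ) [NeZero N] (f : modRing N) : MDiff f.1 :=
  (convTo_expandHom N f).mdiff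

/-- **Polynomial principle in `modRing N`.**  An `SL(2,ℤ)`-invariant element expands to a
polynomial in `j(t^N)`. -/
theorem exists_polynomial_of_smul_invariant (N : ℕ) [NeZero N] (f : modRing N)
    (hf : ∀ g : SL(2, ℤ), g • f = f) :
    ∃ Q : Polynomial ℂ, (∀ τ, f.1 τ = Q.eval (H565.jFun τ)) ∧
      expandHom N f =
        Polynomial.aeval (ModularCurve.qExpand ℂ N (ModularCurve.jqModC ℂ)) Q := by
  have hinv : ∀ (γ : SL(2, ℤ)) (τ : ℍ), f.1 (γ • τ) = f.1 τ := by
    intro γ τ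
    have := (modRing_smul_eq_iff γ⁻¹ f).mp (hf γ⁻¹) τ
    rwa [inv_inv] at this
  exact H565.exists_polynomial_of_invariant (modRing_mdiff N f) hinv
    ((convTo_iff_hasTExp N _ _).mp (convTo_expandHom N f))

end Fermat.Agent.S28.H628

end
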