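/-
S28 long-shot, helper628: the generators `j(dτ)`, `u_d = Δ(dτ)/Δ(τ)`, `u_d⁻¹` of the modular
function ring `modRing N` (`d ∣ N`), their `Γ₀(N)`-invariance and the explicit expansions of all
their `SL(2,ℤ)`-conjugates (orders, leading coefficients, coefficient rings).
-/
import Mathlib
import Fermat.Agent.S28.H628.ModRing

set_option autoImplicit false

noncomputable section

namespace Fermat.Agent.S28.H628

open UpperHalfPlane Complex HahnSeries MatrixGroups
open Fermat.Agent.S28.H205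
open scoped Manifold

local notation "Δ" => ModularForm.discriminant

/-! ### Formal facts about `δ = q ∏ (1 - qⁿ)²⁴` and `j` over `ℂ` -/

theorem coeff_single_mul_ofPS_int (m : ℤ) (p : PowerSeries ℤ) (k : ℤ) :
    ∃ n : ℤ, (HahnSeries.single m (1 : ℂ) *
      HahnSeries.ofPowerSeries ℤ ℂ (p.map (Int.castRingHom ℂ))).coeff k = n := by
  by_cases hk : m ≤ k
  · obtain ⟨i, hi⟩ := Int.eq_ofNat_of_zero_le (sub_nonneg.mpr hk)
    have hk' : k = i + m := by omega
    refine ⟨PowerSeries.coeff i p, ?_⟩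
    rw [hk', coeff_single_mul_ofPS_add, PowerSeries.coeff_map]
    simp
  · refine ⟨0, ?_⟩
    rw [coeff_single_mul_ofPS_of_lt _ _ (not_le.mp hk)]
    simp

theorem deltaSeriesC_eq : H565.deltaSeriesC = HahnSeries.single (1 : ℤ) (1 : ℂ) *
    HahnSeries.ofPowerSeries ℤ ℂ ((ModularCurve.etaProd ^ 24).map (Int.castRingHom ℂ)) := by
  rw [H565.deltaSeriesC, H565.etaProdC]
  simp only [map_pow]

theorem deltaInvSeriesC_eq : H565.deltaInvSeriesC = HahnSeries.single (-1 : ℤ) (1 : ℂ) *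
    HahnSeries.ofPowerSeries ℤ ℂ (ModularCurve.dedekindEtaUnitInv.map (Int.castRingHom ℂ)) := rfl

theorem deltaSeriesC_coeff_int (k : ℤ) : ∃ n : ℤ, H565.deltaSeriesC.coeff k = n := by
  rw [deltaSeriesC_eq]; exact coeff_single_mul_ofPS_int _ _ _

theorem deltaInvSeriesC_coeff_int (k : ℤ) : ∃ n : ℤ, H565.deltaInvSeriesC.coeff k = n := by
  rw [deltaInvSeriesC_eq]; exact coeff_single_mul_ofPS_int _ _ _

theorem deltaSeriesC_inv : (H565.deltaSeriesC)⁻¹ = H565.deltaInvSeriesC :=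
  inv_eq_of_mul_eq_one_right H565.deltaSeriesC_mul_inv

theorem deltaSeriesC_ne_zero : H565.deltaSeriesC ≠ 0 := by
  intro h
  have := H565.deltaSeriesC_mul_inv
  rw [h, zero_mul] at this
  exact zero_ne_one this

theorem constantCoeff_etaProdC : PowerSeries.constantCoeff H565.etaProdC = 1 := by
  rw [H565.etaProdC, ← PowerSeries.coeff_zero_eq_constantCoeff, PowerSeries.coeff_map,
    PowerSeries.coeff_zero_eq_constantCoeff, ModularCurve.constantCoeff_etaProd]
  simp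

theorem deltaSeriesC_coeff_one : H565.deltaSeriesC.coeff 1 = 1 := by
  rw [H565.deltaSeriesC]
  have := coeff_single_mul_ofPS_add (1 : ℤ) (H565.etaProdC ^ 24) 0
  simp only [Nat.cast_zero, zero_add] at this
  rw [this, PowerSeries.coeff_zero_eq_constantCoeff, map_pow, constantCoeff_etaProdC, one_pow]

theorem order_deltaSeriesC : H565.deltaSeriesC.order = 1 := by
  apply order_eq_of_coeff
  · rw [deltaSeriesC_coeff_one]; exact one_ne_zero
  · intro k hk
    rw [H565.deltaSeriesC]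
    exact coeff_single_mul_ofPS_of_lt _ _ hk

theorem leadingCoeff_deltaSeriesC : H565.deltaSeriesC.leadingCoeff = 1 := by
  rw [HahnSeries.leadingCoeff_eq, order_deltaSeriesC, deltaSeriesC_coeff_one]

theorem jqModC_coeff_int (k : ℤ) : ∃ n : ℤ, (ModularCurve.jqModC ℂ).coeff k = n := by
  have h : ModularCurve.jqModC ℂ = HahnSeries.single (-1 : ℤ) (1 : ℂ) *
      HahnSeries.ofPowerSeries ℤ ℂ (ModularCurve.jNum.map (Int.castRingHom ℂ)) := rfl
  rw [h]; exact coeff_single_mul_ofPS_int _ _ _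

theorem jqModC_coeff_neg_one : (ModularCurve.jqModC ℂ).coeff (-1) = 1 := by
  have h : ModularCurve.jqModC ℂ = HahnSeries.single (-1 : ℤ) (1 : ℂ) *
      HahnSeries.ofPowerSeries ℤ ℂ (ModularCurve.jNum.map (Int.castRingHom ℂ)) := rfl
  rw [h]
  have := coeff_single_mul_ofPS_add (-1 : ℤ) (ModularCurve.jNum.map (Int.castRingHom ℂ)) 0
  simp only [Nat.cast_zero, zero_add] at this
  rw [this, PowerSeries.coeff_map, PowerSeries.coeff_zero_eq_constantCoeff]
  have h1 : PowerSeries.constantCoeff ModularCurve.jNum = 1 := by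
    rw [ModularCurve.jNum, map_mul, map_pow, ModularCurve.constantCoeff_dedekindEtaUnitInv]
    rw [ModularCurve.constantCoeff_eisenstein4]; simp
  rw [h1]; simp

theorem order_jqModC : (ModularCurve.jqModC ℂ).order = -1 := by
  apply order_eq_of_coeff
  · rw [jqModC_coeff_neg_one]; exact one_ne_zero
  · intro k hk
    have h : ModularCurve.jqModC ℂ = HahnSeries.single (-1 : ℤ) (1 : ℂ) *
        HahnSeries.ofPowerSeries ℤ ℂ (ModularCurve.jNum.map (Int.castRingHom ℂ)) := rfl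
    rw [h]
    exact coeff_single_mul_ofPS_of_lt _ _ hk

theorem jqModC_ne_zero : ModularCurve.jqModC ℂ ≠ 0 :=
  HahnSeries.ne_zero_of_coeff_ne_zero (by rw [jqModC_coeff_neg_one]; exact one_ne_zero)

theorem leadingCoeff_jqModC : (ModularCurve.jqModC ℂ).leadingCoeff = 1 := by
  rw [HahnSeries.leadingCoeff_eq, order_jqModC, jqModC_coeff_neg_one]

/-! ### Hermite data of `g⁻¹` -/

theorem SL2_inv_10 (g : SL(2, ℤ)) : (g⁻¹) 1 0 = - g 1 0 := by
  rw [Matrix.SpecialLinearGroup.SL2_inv_expl]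
  simp

theorem hermA_inv (d : ℕ) (g : SL(2, ℤ)) : hermA d g⁻¹ = Nat.gcd d (g 1 0).natAbs := by
  unfold hermA
  rw [SL2_inv_10, Int.natAbs_neg]

theorem hermD_inv (d : ℕ) (g : SL(2, ℤ)) : hermD d g⁻¹ = d / Nat.gcd d (g 1 0).natAbs := by
  unfold hermD
  rw [hermA_inv]

/-- `d * conjExp N d g⁻¹ = N * gcd(d, g₁₀)²`. -/
theorem conjExp_inv_mul {N d : ℕ} (hd : 0 < d) (hdN : d ∣ N) (g : SL(2, ℤ)) :
    d * conjExp N d g⁻¹ = N * (Nat.gcd d (g 1 0).natAbs) ^ 2 := by
  rw [conjExp_mul hd hdN, hermA_inv]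

/-! ### The generators -/

section Gen

variable (N d : ℕ) [NeZero N] [NeZero d]

/-- `τ ↦ j(dτ)` as an element of `modRing N` (`d ∣ N`). -/
def jdElt (hdN : d ∣ N) : modRing N :=
  ⟨fun τ => H565.jFun (mulH d τ), fun γ =>
    ⟨conjSeries N d γ (ModularCurve.jqModC ℂ),
      convTo_conj convTo_jFun H565.jFun_smul (Nat.pos_of_ne_zero (NeZero.ne d))
        (Nat.pos_of_ne_zero (NeZero.ne N)) hdN γ (mulH d)
        (coe_mulH (Nat.pos_of_ne_zero (NeZero.ne d)))⟩⟩

/-- `τ ↦ Δ(dτ)/Δ(τ)` as an element of `modRing N` (`d ∣ N`). -/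
def udElt (hdN : d ∣ N) : modRing N :=
  ⟨fun τ => ModularForm.discriminant (mulH d τ) / ModularForm.discriminant τ, fun γ =>
    ⟨conjQuot N d γ 12 H565.deltaSeriesC H565.deltaSeriesC,
      convTo_conjU convTo_discriminant (Nat.pos_of_ne_zero (NeZero.ne d))
        (Nat.pos_of_ne_zero (NeZero.ne N)) hdN γ (mulH d)
        (coe_mulH (Nat.pos_of_ne_zero (NeZero.ne d)))⟩⟩

theorem udElt_ne_zero_apply (hdN : d ∣ N) (τ : ℍ) : (udElt N d hdN).1 τ ≠ 0 :=
  div_ne_zero (ModularForm.discriminant_ne_zero _) (ModularForm.discriminant_ne_zero _)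

/-- `τ ↦ Δ(τ)/Δ(dτ)` as an element of `modRing N` (`d ∣ N`). -/
def udInvElt (hdN : d ∣ N) : modRing N :=
  ⟨fun τ => ((udElt N d hdN).1 τ)⁻¹, IsMerN.inv (udElt N d hdN).2 (udElt_ne_zero_apply N d hdN)⟩

variable {N d}

@[simp] theorem jdElt_apply (hdN : d ∣ N) (τ : ℍ) :
    (jdElt N d hdN).1 τ = H565.jFun (mulH d τ) := rfl

@[simp] theorem udElt_apply (hdN : d ∣ N) (τ : ℍ) :
    (udElt N d hdN).1 τ =
      ModularForm.discriminant (mulH d τ) / ModularForm.discriminant τ := rfl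

theorem udInvElt_apply (hdN : d ∣ N) (τ : ℍ) :
    (udInvElt N d hdN).1 τ =
      ModularForm.discriminant τ / ModularForm.discriminant (mulH d τ) := by
  show ((udElt N d hdN).1 τ)⁻¹ = _
  rw [udElt_apply, inv_div]

theorem udElt_mul_udInvElt (hdN : d ∣ N) : udElt N d hdN * udInvElt N d hdN = 1 := by
  apply Subtype.ext
  funext τ
  show (udElt N d hdN).1 τ * ((udElt N d hdN).1 τ)⁻¹ = 1
  exact mul_inv_cancel₀ (udElt_ne_zero_apply N d hdN τ)

theorem isUnit_udElt (hdN : d ∣ N) : IsUnit (udElt N d hdN) :=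
  IsUnit.of_mul_eq_one _ (udElt_mul_udInvElt hdN)

/-! #### Expansions of the conjugates -/

theorem expandHom_smul_jdElt (hdN : d ∣ N) (g : SL(2, ℤ)) :
    expandHom N (g • jdElt N d hdN) = conjSeries N d g⁻¹ (ModularCurve.jqModC ℂ) :=
  expandHom_smul_eq_of_convTo
    (convTo_conj convTo_jFun H565.jFun_smul (Nat.pos_of_ne_zero (NeZero.ne d))
      (Nat.pos_of_ne_zero (NeZero.ne N)) hdN g⁻¹ (mulH d)
      (coe_mulH (Nat.pos_of_ne_zero (NeZero.ne d))))

theorem expandHom_smul_udElt (hdN : d ∣ N) (g : SL(2, ℤ)) :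
    expandHom N (g • udElt N d hdN) =
      conjQuot N d g⁻¹ 12 H565.deltaSeriesC H565.deltaSeriesC :=
  expandHom_smul_eq_of_convTo
    (convTo_conjU convTo_discriminant (Nat.pos_of_ne_zero (NeZero.ne d))
      (Nat.pos_of_ne_zero (NeZero.ne N)) hdN g⁻¹ (mulH d)
      (coe_mulH (Nat.pos_of_ne_zero (NeZero.ne d))))

theorem expandHom_smul_udInvElt (hdN : d ∣ N) (g : SL(2, ℤ)) :
    expandHom N (g • udInvElt N d hdN) =
      (conjQuot N d g⁻¹ 12 H565.deltaSeriesC H565.deltaSeriesC)⁻¹ := by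
  have h1 : (g • udElt N d hdN) * (g • udInvElt N d hdN) = 1 := by
    rw [← smul_mul', udElt_mul_udInvElt, smul_one]
  have h2 := congrArg (expandHom N) h1
  rw [map_mul, map_one, expandHom_smul_udElt] at h2
  exact eq_inv_of_mul_eq_one_right h2

/-- `E(j_d) = j(t^{Nd})`. -/
theorem expandHom_jdElt (hdN : d ∣ N) :
    expandHom N (jdElt N d hdN) =
      ModularCurve.qExpand ℂ N (ModularCurve.qExpand ℂ d (ModularCurve.jqModC ℂ)) := by
  have h := expandHom_smul_jdElt hdN 1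
  rw [one_smul, inv_one, conjSeries_one (Nat.pos_of_ne_zero (NeZero.ne d))
    (Nat.pos_of_ne_zero (NeZero.ne N))] at h
  rw [h, ModularCurve.qExpand_qExpand]

/-- `E(u_d) = (Δ(q^d)/Δ(q))(t^N)`. -/
theorem expandHom_udElt (hdN : d ∣ N) :
    expandHom N (udElt N d hdN) =
      ModularCurve.qExpand ℂ N
        (ModularCurve.qExpand ℂ d H565.deltaSeriesC * H565.deltaInvSeriesC) := by
  have h := expandHom_smul_udElt hdN 1
  rw [one_smul, inv_one, conjQuot_one (Nat.pos_of_ne_zero (NeZero.ne d))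
    (Nat.pos_of_ne_zero (NeZero.ne N)), deltaSeriesC_inv] at h
  exact h

/-! #### `Γ₀(N)`-invariance -/

theorem smul_jdElt_of_mem_Gamma0 (hdN : d ∣ N) {h : SL(2, ℤ)}
    (hh : h ∈ CongruenceSubgroup.Gamma0 N) : h • jdElt N d hdN = jdElt N d hdN := by
  apply expandHom_injective N
  have h1 := expandHom_smul_jdElt hdN h
  have h2 := expandHom_smul_jdElt hdN 1
  rw [one_smul, inv_one] at h2
  rw [h1, h2]
  have := conjSeries_Gamma0_mul (Nat.pos_of_ne_zero (NeZero.ne d)) hdN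
    ((CongruenceSubgroup.Gamma0 N).inv_mem hh) 1 (ModularCurve.jqModC ℂ)
  rwa [mul_one] at this

theorem smul_udElt_of_mem_Gamma0 (hdN : d ∣ N) {h : SL(2, ℤ)}
    (hh : h ∈ CongruenceSubgroup.Gamma0 N) : h • udElt N d hdN = udElt N d hdN := by
  apply expandHom_injective N
  have h1 := expandHom_smul_udElt hdN h
  have h2 := expandHom_smul_udElt hdN 1
  rw [one_smul, inv_one] at h2
  rw [h1, h2]
  have := conjQuot_Gamma0_mul (Nat.pos_of_ne_zero (NeZero.ne d)) hdN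
    ((CongruenceSubgroup.Gamma0 N).inv_mem hh) 1 12 H565.deltaSeriesC H565.deltaSeriesC
  rwa [mul_one] at this

theorem smul_udInvElt_of_mem_Gamma0 (hdN : d ∣ N) {h : SL(2, ℤ)}
    (hh : h ∈ CongruenceSubgroup.Gamma0 N) : h • udInvElt N d hdN = udInvElt N d hdN := by
  apply expandHom_injective N
  have h1 := expandHom_smul_udInvElt hdN h
  have h2 := expandHom_smul_udInvElt hdN 1
  rw [one_smul, inv_one] at h2
  rw [h1, h2]
  have := conjQuot_Gamma0_mul (Nat.pos_of_ne_zero (NeZero.ne d)) hdN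
    ((CongruenceSubgroup.Gamma0 N).inv_mem hh) 1 12 H565.deltaSeriesC H565.deltaSeriesC
  rw [mul_one] at this
  rw [this]

/-! #### Orders, leading coefficients, coefficient rings of the conjugates of `u_d` -/

/-- `ord_t E(g • u_d) = N a²/d − N`, `a = gcd(d, g₁₀)` (see `conjExp_inv_mul`). -/
theorem order_expandHom_smul_udElt (hdN : d ∣ N) (g : SL(2, ℤ)) :
    (expandHom N (g • udElt N d hdN)).order = (conjExp N d g⁻¹ : ℤ) - N := by
  rw [expandHom_smul_udElt]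
  exact order_conjU order_deltaSeriesC deltaSeriesC_ne_zero (Nat.pos_of_ne_zero (NeZero.ne d))
    (Nat.pos_of_ne_zero (NeZero.ne N)) hdN g⁻¹

/-- The order in the form `d * (ord + N) = N * gcd(d, g₁₀)²`. -/
theorem order_expandHom_smul_udElt' (hdN : d ∣ N) (g : SL(2, ℤ)) :
    (d : ℤ) * ((expandHom N (g • udElt N d hdN)).order + N) =
      (N : ℤ) * ((Nat.gcd d (g 1 0).natAbs : ℕ) : ℤ) ^ 2 := by
  rw [order_expandHom_smul_udElt hdN g]
  have := conjExp_inv_mul (N := N) (Nat.pos_of_ne_zero (NeZero.ne d)) hdN g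
  have h2 : ((d * conjExp N d g⁻¹ : ℕ) : ℤ) = ((N * (Nat.gcd d (g 1 0).natAbs) ^ 2 : ℕ) : ℤ) := by
    rw [this]
  push_cast at h2
  rw [← h2]
  ring

theorem leadingCoeff_expandHom_smul_udElt (hdN : d ∣ N) (g : SL(2, ℤ)) :
    (expandHom N (g • udElt N d hdN)).leadingCoeff =
      ((hermD d g⁻¹ : ℂ)) ^ (-12 : ℤ) * (zetaU (hermD d g⁻¹) (hermB d g⁻¹) : ℂ) := by
  rw [expandHom_smul_udElt]
  exact leadingCoeff_conjU order_deltaSeriesC leadingCoeff_deltaSeriesC
    (Nat.pos_of_ne_zero (NeZero.ne d)) (Nat.pos_of_ne_zero (NeZero.ne N)) hdN g⁻¹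

theorem expandHom_smul_udElt_ne_zero (hdN : d ∣ N) (g : SL(2, ℤ)) :
    expandHom N (g • udElt N d hdN) ≠ 0 := by
  rw [expandHom_smul_udElt]
  exact conjQuot_ne_zero (Nat.pos_of_ne_zero (NeZero.ne d)) (Nat.pos_of_ne_zero (NeZero.ne N))
    hdN g⁻¹ 12 deltaSeriesC_ne_zero deltaSeriesC_ne_zero

/-- Coefficients of the conjugates of `u_d` lie in every subring of `ℂ` containing
`(d')⁻¹²` and `ζ_{d'}^{±b}`. -/
theorem expandHom_smul_udElt_coeff_mem (S : Subring ℂ) (hdN : d ∣ N) (g : SL(2, ℤ))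
    (hD : (((hermD d g⁻¹ : ℂ)) ^ (-12 : ℤ)) ∈ S)
    (hu : (zetaU (hermD d g⁻¹) (hermB d g⁻¹) : ℂ) ∈ S)
    (hu' : (((zetaU (hermD d g⁻¹) (hermB d g⁻¹))⁻¹ : ℂˣ) : ℂ) ∈ S) (n : ℤ) :
    (expandHom N (g • udElt N d hdN)).coeff n ∈ S := by
  rw [expandHom_smul_udElt]
  refine conjQuot_coeff_mem S (Nat.pos_of_ne_zero (NeZero.ne N)) g⁻¹ 12 hD hu hu' ?_ ?_ n
  · intro k
    obtain ⟨m, hm⟩ := deltaSeriesC_coeff_int k
    rw [hm]; exact intCast_mem S m
  · intro k
    rw [deltaSeriesC_inv]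
    obtain ⟨m, hm⟩ := deltaInvSeriesC_coeff_int k
    rw [hm]; exact intCast_mem S m

/-- Coefficients of the conjugates of `j_d` lie in every subring of `ℂ` containing
`ζ_{d'}^{±b}`. -/
theorem expandHom_smul_jdElt_coeff_mem (S : Subring ℂ) (hdN : d ∣ N) (g : SL(2, ℤ))
    (hu : (zetaU (hermD d g⁻¹) (hermB d g⁻¹) : ℂ) ∈ S)
    (hu' : (((zetaU (hermD d g⁻¹) (hermB d g⁻¹))⁻¹ : ℂˣ) : ℂ) ∈ S) (n : ℤ) :
    (expandHom N (g • jdElt N d hdN)).coeff n ∈ S := by
  rw [expandHom_smul_jdElt]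
  refine substSeries_coeff_mem S _ _ _ hu hu' ?_ n
  intro k
  obtain ⟨m, hm⟩ := jqModC_coeff_int k
  rw [hm]; exact intCast_mem S m

theorem order_expandHom_smul_jdElt (hdN : d ∣ N) (g : SL(2, ℤ)) :
    (expandHom N (g • jdElt N d hdN)).order = - (conjExp N d g⁻¹ : ℤ) := by
  rw [expandHom_smul_jdElt, order_conjSeries (Nat.pos_of_ne_zero (NeZero.ne d))
    (Nat.pos_of_ne_zero (NeZero.ne N)) hdN g⁻¹ jqModC_ne_zero, order_jqModC]
  ring

end Gen

end Fermat.Agent.S28.H628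

end
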