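import Mathlib

/-!
# Evaluation of power series converging on the open unit disc

Route-independent analytic helper for S28/S24: the set of complex power series that converge
absolutely on the open unit disc is closed under the ring operations, evaluation at a point of the
disc is multiplicative, and a series whose sum vanishes on the punctured disc is zero.
-/

set_option autoImplicit false

namespace Fermat.Agent.S28.H628

open PowerSeries

/-- `ψ` converges absolutely on the open unit disc. -/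
def ConvDisc (ψ : PowerSeries ℂ) : Prop :=
  ∀ r : ℝ, 0 ≤ r → r < 1 → Summable (fun n : ℕ => ‖coeff n ψ‖ * r ^ n)

/-- The value of a power series at a point (junk value `tsum` outside the domain of convergence). -/
noncomputable def psEval (ψ : PowerSeries ℂ) (z : ℂ) : ℂ := ∑' n : ℕ, coeff n ψ * z ^ n

theorem ConvDisc.summable_norm {ψ : PowerSeries ℂ} (hψ : ConvDisc ψ) {z : ℂ} (hz : ‖z‖ < 1) :
    Summable (fun n : ℕ => ‖coeff n ψ * z ^ n‖) := by
  have := hψ ‖z‖ (norm_nonneg z) hz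
  simpa [norm_mul, norm_pow] using this

theorem ConvDisc.summable {ψ : PowerSeries ℂ} (hψ : ConvDisc ψ) {z : ℂ} (hz : ‖z‖ < 1) :
    Summable (fun n : ℕ => coeff n ψ * z ^ n) :=
  (hψ.summable_norm hz).of_norm

theorem ConvDisc.hasSum {ψ : PowerSeries ℂ} (hψ : ConvDisc ψ) {z : ℂ} (hz : ‖z‖ < 1) :
    HasSum (fun n : ℕ => coeff n ψ * z ^ n) (psEval ψ z) :=
  (hψ.summable hz).hasSum

theorem psEval_eq_of_hasSum {ψ : PowerSeries ℂ} {z s : ℂ}
    (h : HasSum (fun n : ℕ => coeff n ψ * z ^ n) s) : psEval ψ z = s :=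
  h.tsum_eq

/-- A power series that converges (possibly conditionally) at every point of the open unit disc
converges absolutely there. -/
theorem convDisc_of_summable {ψ : PowerSeries ℂ}
    (h : ∀ r : ℝ, 0 < r → r < 1 → Summable (fun n : ℕ => coeff n ψ * (r : ℂ) ^ n)) :
    ConvDisc ψ := by
  intro r hr0 hr1
  rcases hr0.eq_or_lt with rfl | hr0'
  · refine summable_of_ne_finset_zero (s := {0}) ?_
    intro n hn
    have : n ≠ 0 := by simpa using hn
    simp [this]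
  -- choose `ρ` with `r < ρ < 1`
  obtain ⟨ρ, hrρ, hρ1⟩ := exists_between hr1
  have hρ0 : 0 < ρ := hr0'.trans hrρ
  have hs := h ρ hρ0 hρ1
  have hbdd : ∃ C : ℝ, ∀ n, ‖coeff n ψ * (ρ : ℂ) ^ n‖ ≤ C := by
    have ht := hs.tendsto_atTop_zero
    obtain ⟨C, hC⟩ := (Metric.isBounded_range_of_tendsto _ ht).exists_norm_le
    exact ⟨C, fun n => hC _ ⟨n, rfl⟩⟩
  obtain ⟨C, hC⟩ := hbdd
  have hq : r / ρ < 1 := (div_lt_one hρ0).mpr hrρ
  have hq0 : 0 ≤ r / ρ := div_nonneg hr0 hρ0.le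
  have hgeo : Summable (fun n : ℕ => C * (r / ρ) ^ n) :=
    (summable_geometric_of_lt_one hq0 hq).mul_left C
  refine Summable.of_nonneg_of_le (fun n => by positivity) (fun n => ?_) hgeo
  have h1 := hC n
  rw [norm_mul, norm_pow, Complex.norm_real, Real.norm_of_nonneg hρ0.le] at h1
  have hρn : 0 < ρ ^ n := pow_pos hρ0 n
  calc ‖coeff n ψ‖ * r ^ n = (‖coeff n ψ‖ * ρ ^ n) * (r / ρ) ^ n := by
        rw [div_pow]; field_simp
    _ ≤ C * (r / ρ) ^ n := by
        exact mul_le_mul_of_nonneg_right h1 (pow_nonneg hq0 n)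

theorem convDisc_zero : ConvDisc 0 := by
  intro r _ _
  simpa using summable_zero

theorem convDisc_C (c : ℂ) : ConvDisc (C c) := by
  intro r _ _
  refine summable_of_ne_finset_zero (s := {0}) ?_
  intro n hn
  have : n ≠ 0 := by simpa using hn
  simp [coeff_C, this]

theorem convDisc_one : ConvDisc 1 := by
  simpa using convDisc_C 1

theorem convDisc_X : ConvDisc X := by
  intro r _ _
  refine summable_of_ne_finset_zero (s := {1}) ?_
  intro n hn
  have : n ≠ 1 := by simpa using hn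
  simp [coeff_X, this]

theorem ConvDisc.add {ψ χ : PowerSeries ℂ} (hψ : ConvDisc ψ) (hχ : ConvDisc χ) :
    ConvDisc (ψ + χ) := by
  intro r hr0 hr1
  refine Summable.of_nonneg_of_le (fun n => by positivity) (fun n => ?_)
    ((hψ r hr0 hr1).add (hχ r hr0 hr1))
  rw [map_add, ← add_mul]
  exact mul_le_mul_of_nonneg_right (norm_add_le _ _) (pow_nonneg hr0 n)

theorem ConvDisc.neg {ψ : PowerSeries ℂ} (hψ : ConvDisc ψ) : ConvDisc (-ψ) := by
  intro r hr0 hr1
  simpa using hψ r hr0 hr1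

theorem ConvDisc.sub {ψ χ : PowerSeries ℂ} (hψ : ConvDisc ψ) (hχ : ConvDisc χ) :
    ConvDisc (ψ - χ) := by
  simpa [sub_eq_add_neg] using hψ.add hχ.neg

theorem ConvDisc.mul {ψ χ : PowerSeries ℂ} (hψ : ConvDisc ψ) (hχ : ConvDisc χ) :
    ConvDisc (ψ * χ) := by
  intro r hr0 hr1
  have h1 : Summable (fun n : ℕ => ‖(‖coeff n ψ‖ * r ^ n : ℝ)‖) := by
    simpa [abs_of_nonneg, hr0] using (hψ r hr0 hr1).abs
  have h2 : Summable (fun n : ℕ => ‖(‖coeff n χ‖ * r ^ n : ℝ)‖) := by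
    simpa [abs_of_nonneg, hr0] using (hχ r hr0 hr1).abs
  have h := summable_norm_sum_mul_antidiagonal_of_summable_norm h1 h2
  refine Summable.of_nonneg_of_le (fun n => by positivity) (fun n => ?_) h
  rw [coeff_mul, Real.norm_of_nonneg
    (Finset.sum_nonneg fun kl _ => by positivity)]
  calc ‖∑ p ∈ Finset.HasAntidiagonal.antidiagonal n, coeff p.1 ψ * coeff p.2 χ‖ * r ^ n
      ≤ (∑ p ∈ Finset.HasAntidiagonal.antidiagonal n, ‖coeff p.1 ψ‖ * ‖coeff p.2 χ‖) * r ^ n := by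
        refine mul_le_mul_of_nonneg_right ?_ (pow_nonneg hr0 n)
        refine (norm_sum_le _ _).trans (le_of_eq ?_)
        simp [norm_mul]
    _ = ∑ p ∈ Finset.HasAntidiagonal.antidiagonal n, ‖coeff p.1 ψ‖ * r ^ p.1 * (‖coeff p.2 χ‖ * r ^ p.2) := by
        rw [Finset.sum_mul]
        refine Finset.sum_congr rfl fun p hp => ?_
        have hp' : p.1 + p.2 = n := Finset.HasAntidiagonal.mem_antidiagonal.mp hp
        rw [← hp', pow_add]; ring

theorem ConvDisc.pow {ψ : PowerSeries ℂ} (hψ : ConvDisc ψ) (k : ℕ) : ConvDisc (ψ ^ k) := by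
  induction k with
  | zero => simpa using convDisc_one
  | succ k ih => rw [pow_succ]; exact ih.mul hψ

theorem ConvDisc.smul {ψ : PowerSeries ℂ} (hψ : ConvDisc ψ) (c : ℂ) : ConvDisc (c • ψ) := by
  have : c • ψ = C c * ψ := by
    ext n; simp
  rw [this]; exact (convDisc_C c).mul hψ

/-! ### Evaluation is a ring homomorphism on convergent series -/

theorem psEval_zero (z : ℂ) : psEval 0 z = 0 := by
  simp [psEval]

theorem psEval_C (c z : ℂ) : psEval (C c) z = c := by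
  rw [psEval, tsum_eq_single 0]
  · simp
  · intro n hn; simp [coeff_C, hn]

theorem psEval_one (z : ℂ) : psEval 1 z = 1 := by
  simpa using psEval_C 1 z

theorem psEval_X (z : ℂ) : psEval X z = z := by
  rw [psEval, tsum_eq_single 1]
  · simp
  · intro n hn; simp [coeff_X, hn]

theorem psEval_add {ψ χ : PowerSeries ℂ} (hψ : ConvDisc ψ) (hχ : ConvDisc χ) {z : ℂ}
    (hz : ‖z‖ < 1) : psEval (ψ + χ) z = psEval ψ z + psEval χ z := by
  rw [psEval, psEval, psEval, ← (hψ.summable hz).tsum_add (hχ.summable hz)]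
  congr 1; ext n; rw [map_add, add_mul]

theorem psEval_neg (ψ : PowerSeries ℂ) (z : ℂ) : psEval (-ψ) z = -psEval ψ z := by
  rw [psEval, psEval, ← tsum_neg]
  congr 1; ext n; rw [map_neg, neg_mul]

theorem psEval_sub {ψ χ : PowerSeries ℂ} (hψ : ConvDisc ψ) (hχ : ConvDisc χ) {z : ℂ}
    (hz : ‖z‖ < 1) : psEval (ψ - χ) z = psEval ψ z - psEval χ z := by
  rw [sub_eq_add_neg, psEval_add hψ hχ.neg hz, psEval_neg, sub_eq_add_neg]

theorem psEval_mul {ψ χ : PowerSeries ℂ} (hψ : ConvDisc ψ) (hχ : ConvDisc χ) {z : ℂ}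
    (hz : ‖z‖ < 1) : psEval (ψ * χ) z = psEval ψ z * psEval χ z := by
  rw [psEval, psEval, psEval,
    tsum_mul_tsum_eq_tsum_sum_antidiagonal_of_summable_norm (hψ.summable_norm hz)
      (hχ.summable_norm hz)]
  congr 1; ext n
  rw [coeff_mul, Finset.sum_mul]
  refine Finset.sum_congr rfl fun p hp => ?_
  have hp' : p.1 + p.2 = n := Finset.HasAntidiagonal.mem_antidiagonal.mp hp
  rw [← hp', pow_add]; ring

theorem psEval_pow {ψ : PowerSeries ℂ} (hψ : ConvDisc ψ) (k : ℕ) {z : ℂ}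
    (hz : ‖z‖ < 1) : psEval (ψ ^ k) z = psEval ψ z ^ k := by
  induction k with
  | zero => simpa using psEval_one z
  | succ k ih => rw [pow_succ, psEval_mul (hψ.pow k) hψ hz, ih, pow_succ]

theorem psEval_smul (ψ : PowerSeries ℂ) (c z : ℂ) : psEval (c • ψ) z = c * psEval ψ z := by
  rw [psEval, psEval, ← tsum_mul_left]
  congr 1; ext n; simp [mul_assoc]

theorem psEval_X_pow_mul (ψ : PowerSeries ℂ) (k : ℕ) (z : ℂ) :
    psEval (X ^ k * ψ) z = z ^ k * psEval ψ z := by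
  rw [psEval, psEval, ← tsum_mul_left]
  have hinj : Function.Injective (fun n : ℕ => n + k) := fun a b h => by simpa using h
  rw [← hinj.tsum_eq]
  · congr 1; ext n
    rw [coeff_X_pow_mul, pow_add]; ring
  · intro n hn
    by_contra hn'
    have hlt : n < k := by
      by_contra hge
      exact hn' ⟨n - k, by simp; omega⟩
    apply hn
    simp [coeff_X_pow_mul', hlt.not_ge]

/-! ### Shifts, uniqueness -/

/-- The shifted series `n ↦ coeff (n + k) ψ` still converges on the unit disc. -/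
theorem ConvDisc.shift {ψ : PowerSeries ℂ} (hψ : ConvDisc ψ) (k : ℕ) :
    ConvDisc (PowerSeries.mk fun n => coeff (n + k) ψ) := by
  intro r hr0 hr1
  rcases hr0.eq_or_lt with rfl | hr0'
  · refine summable_of_ne_finset_zero (s := {0}) ?_
    intro n hn
    have : n ≠ 0 := by simpa using hn
    simp [this]
  have h := (summable_nat_add_iff k).mpr (hψ r hr0 hr1)
  have h2 := h.mul_right ((r ^ k)⁻¹)
  refine h2.congr fun n => ?_
  rw [coeff_mk, pow_add]
  have : r ^ k ≠ 0 := (pow_pos hr0' k).ne'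
  field_simp

theorem ConvDisc.divXPowOrder {ψ : PowerSeries ℂ} (hψ : ConvDisc ψ) :
    ConvDisc (PowerSeries.divXPowOrder ψ) :=
  hψ.shift _

/-- Lipschitz-type bound near `0`: `|ψ(z) - ψ(0)| ≤ M |z|` for `|z| ≤ 1/2`. -/
theorem ConvDisc.exists_norm_psEval_sub_le {ψ : PowerSeries ℂ} (hψ : ConvDisc ψ) :
    ∃ M : ℝ, 0 ≤ M ∧ ∀ z : ℂ, ‖z‖ ≤ 1 / 2 → ‖psEval ψ z - coeff 0 ψ‖ ≤ M * ‖z‖ := by
  have hs0 := (hψ.shift 1) (1 / 2) (by norm_num) (by norm_num)
  have hs : Summable (fun n : ℕ => ‖coeff (n + 1) ψ‖ * (1 / 2 : ℝ) ^ n) := by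
    refine hs0.congr fun n => ?_
    rw [coeff_mk]
  refine ⟨∑' n : ℕ, ‖coeff (n + 1) ψ‖ * (1 / 2 : ℝ) ^ n,
    tsum_nonneg fun n => by positivity, fun z hz => ?_⟩
  have hz1 : ‖z‖ < 1 := lt_of_le_of_lt hz (by norm_num)
  have hsum := hψ.summable hz1
  have hsplit : psEval ψ z = coeff 0 ψ + ∑' n : ℕ, coeff (n + 1) ψ * z ^ (n + 1) := by
    rw [psEval, hsum.tsum_eq_zero_add, pow_zero, mul_one]
  have hnorm : Summable (fun n : ℕ => ‖coeff (n + 1) ψ * z ^ (n + 1)‖) :=
    (summable_nat_add_iff 1).mpr (hψ.summable_norm hz1)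
  rw [hsplit, add_sub_cancel_left]
  have hle : ∀ n : ℕ, ‖coeff (n + 1) ψ * z ^ (n + 1)‖ ≤
      (‖coeff (n + 1) ψ‖ * (1 / 2 : ℝ) ^ n) * ‖z‖ := by
    intro n
    rw [norm_mul, norm_pow, pow_succ, ← mul_assoc]
    refine mul_le_mul_of_nonneg_right ?_ (norm_nonneg z)
    exact mul_le_mul_of_nonneg_left (pow_le_pow_left₀ (norm_nonneg z) hz n) (norm_nonneg _)
  calc ‖∑' n : ℕ, coeff (n + 1) ψ * z ^ (n + 1)‖
      ≤ ∑' n : ℕ, ‖coeff (n + 1) ψ * z ^ (n + 1)‖ := norm_tsum_le_tsum_norm hnorm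
    _ ≤ ∑' n : ℕ, (‖coeff (n + 1) ψ‖ * (1 / 2 : ℝ) ^ n) * ‖z‖ :=
        hnorm.tsum_le_tsum hle (hs.mul_right ‖z‖)
    _ = (∑' n : ℕ, ‖coeff (n + 1) ψ‖ * (1 / 2 : ℝ) ^ n) * ‖z‖ := tsum_mul_right

private theorem eq_zero_of_pow_eq_zero_aux {z : ℂ} {k : ℕ} (h : z ^ k = 0) : z = 0 := by
  exact (pow_eq_zero_iff (n := k) (by rintro rfl; simp at h)).mp h

/-- **Uniqueness**: a convergent power series whose sum vanishes at all small nonzero points
of a sequence-free neighbourhood is zero. We state it with vanishing on a punctured disc of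
radius `ε`. -/
theorem ConvDisc.eq_zero_of_psEval_eq_zero {ψ : PowerSeries ℂ} (hψ : ConvDisc ψ) {ε : ℝ}
    (hε : 0 < ε) (h : ∀ z : ℂ, z ≠ 0 → ‖z‖ < ε → psEval ψ z = 0) : ψ = 0 := by
  by_contra hne
  set χ := PowerSeries.divXPowOrder ψ with hχ
  have hχc : ConvDisc χ := hψ.divXPowOrder
  have hχ0 : coeff 0 χ ≠ 0 := by
    rw [hχ, coeff_divXPowOrder, zero_add]
    exact coeff_order hne
  obtain ⟨M, hM0, hM⟩ := hχc.exists_norm_psEval_sub_le
  -- choose a small nonzero `z`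
  set δ : ℝ := min (min (1 / 2) (ε / 2)) (‖coeff 0 χ‖ / (2 * (M + 1))) with hδ
  have hc0 : 0 < ‖coeff 0 χ‖ := norm_pos_iff.mpr hχ0
  have hδpos : 0 < δ := by
    rw [hδ]; refine lt_min (lt_min (by norm_num) (by linarith)) ?_
    positivity
  have hδ1 : δ ≤ 1 / 2 := (min_le_left _ _).trans (min_le_left _ _)
  have hδ2 : δ ≤ ε / 2 := (min_le_left _ _).trans (min_le_right _ _)
  have hδ3 : δ ≤ ‖coeff 0 χ‖ / (2 * (M + 1)) := min_le_right _ _
  set z : ℂ := (δ : ℂ) with hz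
  have hznorm : ‖z‖ = δ := by rw [hz, Complex.norm_real, Real.norm_of_nonneg hδpos.le]
  have hz0 : z ≠ 0 := by
    rw [← norm_pos_iff, hznorm]; exact hδpos
  have hzε : ‖z‖ < ε := by rw [hznorm]; linarith
  have hψz := h z hz0 hzε
  have hfac : psEval ψ z = z ^ ψ.order.toNat * psEval χ z := by
    rw [← psEval_X_pow_mul, hχ, X_pow_order_mul_divXPowOrder]
  have hχz : psEval χ z = 0 := by
    rw [hfac] at hψz
    rcases mul_eq_zero.mp hψz with h1 | h1
    · exact absurd (eq_zero_of_pow_eq_zero_aux h1) hz0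
    · exact h1
  have hb := hM z (by rw [hznorm]; exact hδ1)
  rw [hχz, zero_sub, norm_neg, hznorm] at hb
  have hM1 : M * δ ≤ ‖coeff 0 χ‖ / 2 := by
    have h1 : M * δ ≤ (M + 1) * δ := by nlinarith
    have h2 : (M + 1) * δ ≤ (M + 1) * (‖coeff 0 χ‖ / (2 * (M + 1))) :=
      mul_le_mul_of_nonneg_left hδ3 (by linarith)
    have h3 : (M + 1) * (‖coeff 0 χ‖ / (2 * (M + 1))) = ‖coeff 0 χ‖ / 2 := by
      field_simp
    linarith
  linarith

/-- Two convergent power series with the same sums on a punctured disc are equal. -/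
theorem ConvDisc.eq_of_psEval_eq {ψ χ : PowerSeries ℂ} (hψ : ConvDisc ψ) (hχ : ConvDisc χ)
    {ε : ℝ} (hε : 0 < ε) (h : ∀ z : ℂ, z ≠ 0 → ‖z‖ < ε → psEval ψ z = psEval χ z) : ψ = χ := by
  have hε' : 0 < min ε 1 := lt_min hε one_pos
  have := (hψ.sub hχ).eq_zero_of_psEval_eq_zero hε' fun z hz0 hz => by
    have hz1 : ‖z‖ < 1 := lt_of_lt_of_le hz (min_le_right _ _)
    rw [psEval_sub hψ hχ hz1, h z hz0 (lt_of_lt_of_le hz (min_le_left _ _)), sub_self]
  exact sub_eq_zero.mp this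

end Fermat.Agent.S28.H628
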